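import Fermat.Agent.S22T.H857.Glue
import Fermat.Prelude.Thm_ModularFormClass_qCoeff_heckeT
import Fermat.Prelude.Thm_ModularFormClass_qCoeff_heckeU
import Fermat.Prelude.Thm_CongruenceSubgroup_one_mem_strictPeriods_Gamma0

set_option autoImplicit false

/-!
# S22, algebraic route: endgame

If all `q`-expansion coefficient functionals `a_n : S_k(Γ₀(N)) → ℂ` lie in one finitely
generated `ℤ`-submodule of the dual space, then the Hecke algebra is a finite `ℤ`-module
(for `1 ≤ k`).
-/

open CuspForm CongruenceSubgroup ModularFormClass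

namespace Fermat.Agent.S22T.H857

variable {N : ℕ} {k : ℤ}

theorem one_mem_sp (N : ℕ) :
    (1 : ℝ) ∈ (Subgroup.map (Matrix.SpecialLinearGroup.mapGL ℝ) (Gamma0 N)).strictPeriods :=
  CongruenceSubgroup.one_mem_strictPeriods_Gamma0 N

theorem qCoeff_add' (f g : CuspForm (Gamma0 N) k) (n : ℕ) :
    qCoeff ⇑(f + g) n = qCoeff ⇑f n + qCoeff ⇑g n := by
  simp only [qCoeff, FunLike.coe_add]
  rw [ModularForm.qExpansion_add one_pos (one_mem_sp N) f g, map_add]

theorem qCoeff_smul' (c : ℂ) (f : CuspForm (Gamma0 N) k) (n : ℕ) :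
    qCoeff ⇑(c • f) n = c * qCoeff ⇑f n := by
  have h1 : ⇑(c • f) = c • ⇑f := by
    ext z
    simp
  simp only [qCoeff, h1]
  rw [ModularForm.qExpansion_smul one_pos (one_mem_sp N) c f]
  simp

theorem eq_zero_of_qCoeff (f : CuspForm (Gamma0 N) k) (h : ∀ n, qCoeff ⇑f n = 0) :
    f = 0 := by
  have h0 : UpperHalfPlane.qExpansion 1 ⇑f = 0 := by
    ext n
    simpa [qCoeff] using h n
  have hper := SlashInvariantFormClass.periodic_comp_ofComplex f (one_mem_sp N)
  haveI : Fact (IsCusp OnePoint.infty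
      (Subgroup.map (Matrix.SpecialLinearGroup.mapGL ℝ) (Gamma0 N))) :=
    ⟨Subgroup.isCusp_of_mem_strictPeriods one_pos (one_mem_sp N)⟩
  have := (UpperHalfPlane.qExpansion_eq_zero_iff one_pos hper (ModularFormClass.holo f)
    (ModularFormClass.bdd_at_infty f)).mp h0
  exact DFunLike.coe_injective (this.trans CuspForm.coe_zero.symm)

/-- The `n`-th `q`-expansion coefficient, as a linear functional on `S_k(Γ₀(N))`. -/
noncomputable def coeffFun (N : ℕ) (k : ℤ) (n : ℕ) :
    Module.Dual ℂ (CuspForm (Gamma0 N) k) where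
  toFun f := qCoeff ⇑f n
  map_add' f g := qCoeff_add' f g n
  map_smul' c f := by
    simp only [RingHom.id_apply, smul_eq_mul]
    exact qCoeff_smul' c f n

@[simp] theorem coeffFun_apply (n : ℕ) (f : CuspForm (Gamma0 N) k) :
    coeffFun N k n f = qCoeff ⇑f n := rfl

/-- The `ℤ`-span of the coefficient functionals. -/
noncomputable def coeffLattice (N : ℕ) (k : ℤ) :
    Submodule ℤ (Module.Dual ℂ (CuspForm (Gamma0 N) k)) :=
  Submodule.span ℤ (Set.range (coeffFun N k))

theorem coeffFun_mem_coeffLattice (n : ℕ) : coeffFun N k n ∈ coeffLattice N k :=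
  Submodule.subset_span ⟨n, rfl⟩

theorem coeffLattice_separating (f : CuspForm (Gamma0 N) k)
    (h : ∀ l ∈ coeffLattice N k, l f = 0) : f = 0 :=
  eq_zero_of_qCoeff f fun n => h _ (coeffFun_mem_coeffLattice n)

theorem natCast_zpow_sub_one {p : ℕ} (hk : 1 ≤ k) :
    ((p : ℂ) ^ (k - 1)) = ((p ^ (k - 1).toNat : ℕ) : ℂ) := by
  have h : k - 1 = ((k - 1).toNat : ℤ) := (Int.toNat_of_nonneg (by omega)).symm
  conv_lhs => rw [h]
  rw [zpow_natCast]
  push_cast
  rfl

theorem coeffFun_comp_heckeTLin (hk : 1 ≤ k) {p : ℕ} (hp : p.Prime) (hpN : ¬ p ∣ N) (n : ℕ) :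
    coeffFun N k n ∘ₗ CuspForm.heckeTLin k hp hpN =
      coeffFun N k (n * p) +
        if p ∣ n then (p ^ (k - 1).toNat : ℕ) • coeffFun N k (n / p) else 0 := by
  ext f
  simp only [LinearMap.comp_apply, coeffFun_apply, LinearMap.add_apply]
  rw [CuspForm.coe_heckeTLin_apply,
    ModularFormClass.qCoeff_heckeT f (one_mem_sp N) hp.ne_zero n,
    ModularForm.coeffHeckeT_apply]
  split_ifs with h
  · rw [natCast_zpow_sub_one hk]
    simp [coeffFun_apply, Nat.cast_smul_eq_nsmul]
  · simp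

theorem coeffFun_comp_heckeULin [NeZero N] {p : ℕ} (hp : p.Prime) (hpN : p ∣ N) (n : ℕ) :
    coeffFun N k n ∘ₗ CuspForm.heckeULin k hpN = coeffFun N k (n * p) := by
  ext f
  simp only [LinearMap.comp_apply, coeffFun_apply]
  rw [CuspForm.coe_heckeULin_apply,
    ModularFormClass.qCoeff_heckeU f (one_mem_sp N) hp.ne_zero n,
    ModularForm.coeffHeckeU_apply]

theorem coeffLattice_stable [NeZero N] (hk : 1 ≤ k) (S : Set ℕ)
    (T : Module.End ℂ (CuspForm (Gamma0 N) k)) (hT : T ∈ heckeGenerators N k S)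
    (l : Module.Dual ℂ (CuspForm (Gamma0 N) k)) (hl : l ∈ coeffLattice N k) :
    l ∘ₗ T ∈ coeffLattice N k := by
  have key : ∀ n, coeffFun N k n ∘ₗ T ∈ coeffLattice N k := by
    intro n
    rcases hT with ⟨ℓ, hℓ, hℓN, -, rfl⟩ | ⟨q, hqN, hq, -, rfl⟩
    · rw [coeffFun_comp_heckeTLin hk hℓ hℓN n]
      refine Submodule.add_mem _ (coeffFun_mem_coeffLattice _) ?_
      split_ifs
      · exact Submodule.smul_of_tower_mem _ _ (coeffFun_mem_coeffLattice _)
      · exact Submodule.zero_mem _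
    · rw [coeffFun_comp_heckeULin hq hqN n]
      exact coeffFun_mem_coeffLattice _
  induction hl using Submodule.span_induction with
  | mem x hx =>
    obtain ⟨n, rfl⟩ := hx
    exact key n
  | zero =>
    rw [LinearMap.zero_comp]
    exact Submodule.zero_mem _
  | add x y _ _ hx hy =>
    rw [LinearMap.add_comp]
    exact Submodule.add_mem _ hx hy
  | smul c x _ hx =>
    rw [LinearMap.smul_comp]
    exact Submodule.smul_mem _ c hx

/-- **Endgame**: if all coefficient functionals lie in a finitely generated `ℤ`-submodule of the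
dual of `S_k(Γ₀(N))`, then the Hecke algebra is module-finite over `ℤ` (weight `k ≥ 1`). -/
theorem moduleFinite_of_coeffFun_mem [NeZero N] (hk : 1 ≤ k) (S : Set ℕ)
    (Λ : Submodule ℤ (Module.Dual ℂ (CuspForm (Gamma0 N) k))) (hfg : Λ.FG)
    (h : ∀ n, coeffFun N k n ∈ Λ) :
    Module.Finite ℤ (heckeAlgebra N k S) := by
  have hle : coeffLattice N k ≤ Λ := Submodule.span_le.mpr (by rintro _ ⟨n, rfl⟩; exact h n)
  exact moduleFinite_heckeAlgebra_of_lattice (coeffLattice N k)
    (hfg.of_le hle) (coeffLattice_stable hk S) coeffLattice_separating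

end Fermat.Agent.S22T.H857
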