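import Mathlib.RingTheory.PowerSeries.Inverse
import Mathlib.RingTheory.Finiteness.Basic
import Mathlib.RingTheory.Noetherian.Basic
import Mathlib.LinearAlgebra.Dual.Defs
import Mathlib.Analysis.Complex.Basic

set_option autoImplicit false

/-!
# S22, algebraic route: the division lemma

Abstract statement: if a family of functionals `a n` on a `ℂ`-vector space satisfies a power series
identity `(∑ a_n(f) X^(N n)) * (C X^s W) = ∑ i, lam_i(f) • G_i` for all `f`, where `W` has
constant coefficient `1` and coefficients in a subring `R ⊆ ℂ` which is finite over `ℤ`,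
`C⁻¹ ∈ R`, and the `G_i` have coefficients in `c'⁻¹ R`, then all `a n` lie in one finitely
generated `ℤ`-submodule of the dual.
-/

open PowerSeries

namespace Fermat.Agent.S22T.H857

section Lattice

variable {V : Type*} [AddCommGroup V] [Module ℂ V]

/-- The `ℤ`-lattice `∑ i, c'⁻¹ R • lam i`, presented by finitely many generators. -/
noncomputable def bigLattice (R : Subring ℂ) {r : ℕ} (b : Fin r → R) (c' : ℂ)
    {ι : Type*} (lam : ι → Module.Dual ℂ V) : Submodule ℤ (Module.Dual ℂ V) :=
  Submodule.span ℤ (Set.range fun p : Fin r × ι => (c'⁻¹ * (b p.1 : ℂ)) • lam p.2)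

theorem bigLattice_fg (R : Subring ℂ) {r : ℕ} (b : Fin r → R) (c' : ℂ)
    {ι : Type*} [Finite ι] (lam : ι → Module.Dual ℂ V) : (bigLattice R b c' lam).FG :=
  Submodule.fg_span (Set.finite_range _)

theorem smul_mem_bigLattice (R : Subring ℂ) {r : ℕ} (b : Fin r → R)
    (hb : Submodule.span ℤ (Set.range b) = ⊤) (c' : ℂ) (hc' : c' ≠ 0)
    {ι : Type*} (lam : ι → Module.Dual ℂ V) (y : ℂ) (hy : c' * y ∈ R) (i : ι) :
    y • lam i ∈ bigLattice R b c' lam := by
  have hmem : (⟨c' * y, hy⟩ : R) ∈ Submodule.span ℤ (Set.range b) := by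
    rw [hb]; exact Submodule.mem_top
  obtain ⟨n, hn⟩ := (Submodule.mem_span_range_iff_exists_fun ℤ).mp hmem
  have hn' : (∑ j, (n j : ℂ) * (b j : ℂ)) = c' * y := by
    have := congrArg (fun x : R => (x : ℂ)) hn
    simpa [zsmul_eq_mul] using this
  have hy' : y = ∑ j, (n j : ℂ) * (c'⁻¹ * (b j : ℂ)) := by
    have : y = c'⁻¹ * (c' * y) := by field_simp
    rw [this, ← hn', Finset.mul_sum]
    refine Finset.sum_congr rfl fun j _ => ?_
    ring
  rw [hy', Finset.sum_smul]
  refine Submodule.sum_mem _ fun j _ => ?_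
  rw [mul_smul, Int.cast_smul_eq_zsmul]
  exact Submodule.smul_mem _ _ (Submodule.subset_span ⟨(j, i), rfl⟩)

end Lattice

section Series

/-- A power series over `ℂ` with coefficients in a subring `R`, viewed over `R`. -/
noncomputable def restrictPS (R : Subring ℂ) (W : PowerSeries ℂ) (hW : ∀ n, coeff n W ∈ R) :
    PowerSeries R :=
  PowerSeries.mk fun n => ⟨coeff n W, hW n⟩

theorem map_restrictPS (R : Subring ℂ) (W : PowerSeries ℂ) (hW : ∀ n, coeff n W ∈ R) :
    PowerSeries.map R.subtype (restrictPS R W hW) = W := by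
  ext n
  simp [restrictPS]

/-- A power series with constant coefficient `1` and coefficients in `R` has an inverse with
coefficients in `R`. -/
theorem exists_inverse_coeff_mem (R : Subring ℂ) (W : PowerSeries ℂ)
    (hW0 : constantCoeff W = 1) (hW : ∀ n, coeff n W ∈ R) :
    ∃ W' : PowerSeries ℂ, W * W' = 1 ∧ ∀ n, coeff n W' ∈ R := by
  set WR := restrictPS R W hW with hWR
  have h0 : constantCoeff WR = ((1 : Rˣ) : R) := by
    apply Subtype.ext
    have : ((constantCoeff WR : R) : ℂ) = constantCoeff W := by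
      rw [← PowerSeries.coeff_zero_eq_constantCoeff_apply,
        ← PowerSeries.coeff_zero_eq_constantCoeff_apply]
      simp [hWR, restrictPS]
    rw [this, hW0]
    simp
  refine ⟨PowerSeries.map R.subtype (WR.invOfUnit 1), ?_, fun n => ?_⟩
  · conv_lhs => rw [← map_restrictPS R W hW]
    rw [← map_mul, PowerSeries.mul_invOfUnit WR 1 h0, map_one]
  · rw [PowerSeries.coeff_map]
    exact Subtype.prop _

/-- Coefficients of a product lie in `c'⁻¹ R` if those of the first factor do and those of the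
second lie in `R`. -/
theorem coeff_mul_mem (R : Subring ℂ) (c' : ℂ) (G W' : PowerSeries ℂ)
    (hG : ∀ n, c' * coeff n G ∈ R) (hW' : ∀ n, coeff n W' ∈ R) (n : ℕ) :
    c' * coeff n (G * W') ∈ R := by
  rw [PowerSeries.coeff_mul, Finset.mul_sum]
  refine Subring.sum_mem _ fun p _ => ?_
  rw [← mul_assoc]
  exact Subring.mul_mem _ (hG _) (hW' _)

end Series

section Main

variable {V : Type*} [AddCommGroup V] [Module ℂ V]

/-- The power series `∑ a_n X^(N n)`. -/
noncomputable def stretchSeries (N : ℕ) (a : ℕ → ℂ) : PowerSeries ℂ :=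
  PowerSeries.mk fun n => if N ∣ n then a (n / N) else 0

theorem coeff_stretchSeries_mul (N : ℕ) (hN : 0 < N) (a : ℕ → ℂ) (n : ℕ) :
    coeff (N * n) (stretchSeries N a) = a n := by
  simp [stretchSeries, Nat.mul_div_cancel_left n hN]

/-- **Division lemma.** -/
theorem exists_fg_lattice_of_identity
    (a : ℕ → Module.Dual ℂ V)
    (R : Subring ℂ) [Module.Finite ℤ R]
    (N : ℕ) (hN : 0 < N)
    {ι : Type*} [Fintype ι] (lam : ι → Module.Dual ℂ V) (G : ι → PowerSeries ℂ)
    (c' : ℂ) (hc' : c' ≠ 0) (hG : ∀ i n, c' * coeff n (G i) ∈ R)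
    (C : ℂ) (hC : C ≠ 0) (hCinv : C⁻¹ ∈ R) (s : ℕ)
    (W : PowerSeries ℂ) (hW0 : constantCoeff W = 1) (hW : ∀ n, coeff n W ∈ R)
    (hid : ∀ f : V, stretchSeries N (fun n => a n f) * (PowerSeries.C C * X ^ s * W)
      = ∑ i, lam i f • G i) :
    ∃ Λ : Submodule ℤ (Module.Dual ℂ V), Λ.FG ∧ ∀ n, a n ∈ Λ := by
  obtain ⟨r, b, hb⟩ := Module.Finite.exists_fin (R := ℤ) (M := R)
  obtain ⟨W', hWW', hW'⟩ := exists_inverse_coeff_mem R W hW0 hW
  refine ⟨bigLattice R b c' lam, bigLattice_fg R b c' lam, fun n => ?_⟩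
  -- the key identity of functionals
  have key : a n = ∑ i, (C⁻¹ * coeff (s + N * n) (G i * W')) • lam i := by
    ext f
    have h1 : stretchSeries N (fun n => a n f) * (PowerSeries.C C * X ^ s)
        = ∑ i, lam i f • (G i * W') := by
      have := congrArg (fun x => x * W') (hid f)
      rw [Finset.sum_mul] at this
      have e : stretchSeries N (fun n => a n f) * (PowerSeries.C C * X ^ s * W) * W'
          = stretchSeries N (fun n => a n f) * (PowerSeries.C C * X ^ s) := by
        rw [mul_assoc, mul_assoc (PowerSeries.C C * X ^ s), hWW', mul_one]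
      rw [← e, this]
      exact Finset.sum_congr rfl fun i _ => smul_mul_assoc (lam i f) (G i) W'
    have h2 := congrArg (coeff (s + N * n)) h1
    rw [mul_comm (stretchSeries N _), mul_assoc, PowerSeries.coeff_C_mul, add_comm s,
      PowerSeries.coeff_X_pow_mul, coeff_stretchSeries_mul N hN, map_sum] at h2
    simp only [LinearMap.coe_sum, Finset.sum_apply, LinearMap.smul_apply, smul_eq_mul]
    have h3 : a n f = C⁻¹ * (C * a n f) := by field_simp
    rw [h3, h2, Finset.mul_sum]
    refine Finset.sum_congr rfl fun i _ => ?_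
    rw [PowerSeries.coeff_smul, smul_eq_mul, add_comm]
    ring
  rw [key]
  refine Submodule.sum_mem _ fun i _ => ?_
  refine smul_mem_bigLattice R b hb c' hc' lam _ ?_ i
  have : c' * (C⁻¹ * coeff (s + N * n) (G i * W'))
      = C⁻¹ * (c' * coeff (s + N * n) (G i * W')) := by ring
  rw [this]
  exact Subring.mul_mem _ hCinv (coeff_mul_mem R c' (G i) W' (hG i) hW' _)

/-- **Division lemma**, general form: the leading constant `C` only has to be nonzero. -/
theorem exists_fg_lattice_of_identity'
    (a : ℕ → Module.Dual ℂ V)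
    (R : Subring ℂ) [Module.Finite ℤ R]
    (N : ℕ) (hN : 0 < N)
    {ι : Type*} [Fintype ι] (lam : ι → Module.Dual ℂ V) (G : ι → PowerSeries ℂ)
    (c' : ℂ) (hc' : c' ≠ 0) (hG : ∀ i n, c' * coeff n (G i) ∈ R)
    (C : ℂ) (hC : C ≠ 0) (s : ℕ)
    (W : PowerSeries ℂ) (hW0 : constantCoeff W = 1) (hW : ∀ n, coeff n W ∈ R)
    (hid : ∀ f : V, stretchSeries N (fun n => a n f) * (PowerSeries.C C * X ^ s * W)
      = ∑ i, lam i f • G i) :
    ∃ Λ : Submodule ℤ (Module.Dual ℂ V), Λ.FG ∧ ∀ n, a n ∈ Λ := by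
  refine exists_fg_lattice_of_identity a R N hN lam (fun i => C⁻¹ • G i) (c' * C)
    (mul_ne_zero hc' hC) ?_ 1 one_ne_zero (by rw [inv_one]; exact R.one_mem) s W hW0 hW ?_
  · intro i n
    have : c' * C * coeff n (C⁻¹ • G i) = c' * coeff n (G i) := by
      rw [PowerSeries.coeff_smul, smul_eq_mul]
      field_simp
    rw [this]
    exact hG i n
  · intro f
    have h := congrArg (fun x => C⁻¹ • x) (hid f)
    simp only [Finset.smul_sum] at h
    have e1 : C⁻¹ • (stretchSeries N (fun n => a n f) * (PowerSeries.C C * X ^ s * W))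
        = stretchSeries N (fun n => a n f) * (PowerSeries.C 1 * X ^ s * W) := by
      rw [← mul_smul_comm, mul_assoc (PowerSeries.C C), mul_assoc (PowerSeries.C 1),
        ← smul_mul_assoc]
      congr 2
      ext m
      simp [PowerSeries.coeff_C, hC]
    rw [← e1, h]
    exact Finset.sum_congr rfl fun i _ => smul_comm _ _ _

end Main

end Fermat.Agent.S22T.H857
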